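import Fermat.Agent.S35.G.H514.D2FMod

/-!
# S35, piece (G'), leaf D2F (helper514): descent from the auxiliary level

`d2f : D2FStatement` — `NewPartFrobAt (auxM M q) q m → NewPartFrobAt M q m` for `q ∤ M m`.

Only `q ∈ {2, 3}` with the auxiliary prime `a ∈ {3, 2}` not dividing `M` is nontrivial; there
`auxM M q = M * a` and `π : X₀(M a q) → X₀(M q)` has degree `a + 1 ∈ {4, 3}`, a power of `q`.
For `x ∈ J₀(M q)[m]` with `α_* x = β_* x = 0`:

* `α'_* π^* x = α_a^* α_* x = 0`, `β'_* π^* x = α_a^* β_* x = 0` (base change, the squares are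
  cartesian: `S37.H818.normCompat_modular`, `normCompat_beta`);
* hence `(t - 1)² (t - q²) π^* x = 0`, i.e. `π^* ((t - 1)² (t - q²) x) = 0` (`π^*` is Galois
  equivariant);
* `π^* y = 0 → (a + 1) y = 0`, and `m y = 0` with `gcd (a + 1, m) = 1`.
-/

set_option autoImplicit false
set_option linter.style.haveILetI false

noncomputable section

namespace Fermat.Agent.S35.G.H514

open ModularCurve AlgebraicCurve IntermediateField
open Fermat.Agent.S37.H818 (pullbackPic0Along NormCompat degenTop square_alpha square_beta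
  normCompat_modular nsmul_eq_zero_of_pullbackPic0Along_eq_zero)

theorem frobPolyAdd_zero {Γ X : Type*} [Group Γ] [AddCommGroup X] [DistribMulAction Γ X]
    (t : Γ) (Q : ℕ) : frobPolyAdd t Q (0 : X) = 0 := by
  unfold frobPolyAdd
  simp only [smul_zero, sub_zero]

/-- **Descent along `X₀(M a q) → X₀(M q)`**, `a ≠ q` primes not dividing `M`, `a + 1` prime to
`m`. -/
theorem newPartFrobAt_of_mul (M a q m : ℕ) [NeZero M] [NeZero a] [NeZero q]
    (ha : a.Prime) (hq : q.Prime) (hne : a ≠ q) (haM : ¬ a ∣ M) (hqM : ¬ q ∣ M)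
    (hcop : Nat.Coprime (a + 1) m) (h : NewPartFrobAt (M * a) q m) : NewPartFrobAt M q m := by
  intro A hA s hs x hmx hax hbx
  have hqa : ¬ q ∣ a := fun hd => hne ((Nat.prime_dvd_prime_iff_eq hq ha).mp hd).symm
  have haq : ¬ a ∣ q := fun hd => hne ((Nat.prime_dvd_prime_iff_eq ha hq).mp hd)
  have hqMa : ¬ q ∣ M * a := fun hd => (hq.dvd_mul.mp hd).elim hqM hqa
  have haMq : ¬ a ∣ M * q := fun hd => (ha.dvd_mul.mp hd).elim haM haq
  haveI hP1 : HasPrincipalDivisors Qb (modularFunctionFieldBar (M * q)) :=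
    Fermat.Agent.Lib.HI.H864.hasPrincipalDivisors_FF (M * q)
  haveI hP2 : HasPrincipalDivisors Qb (modularFunctionFieldBar (M * a)) :=
    Fermat.Agent.Lib.HI.H864.hasPrincipalDivisors_FF (M * a)
  haveI hP3 : HasPrincipalDivisors Qb (modularFunctionFieldBar (M * a * q)) :=
    Fermat.Agent.Lib.HI.H864.hasPrincipalDivisors_FF (M * a * q)
  -- the inputs of the degeneracy maps
  have hα : (heckeAlphaBar Qb M q).toRingHom.IsIntegral :=
    Fermat.Agent.Lib.HI.H864.heckeAlphaBarIntegral M q
  have hαf : FiniteAlong Qb (heckeAlphaBar Qb M q) :=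
    Fermat.Agent.Lib.HI.H864.finiteAlong_alpha M q
  have hαN : NormFormulaAlong Qb (heckeAlphaBar Qb M q) hαf :=
    Fermat.Agent.Lib.HI.H864.normFormulaAlong_alpha M q hαf
  have hβ : (heckeBetaBar Qb M q).toRingHom.IsIntegral :=
    Fermat.Agent.Lib.HI.H864.heckeBetaBarIntegral M q
  have hβf : FiniteAlong Qb (heckeBetaBar Qb M q) :=
    Fermat.Agent.Lib.HI.H864.finiteAlong_beta M q
  have hβN : NormFormulaAlong Qb (heckeBetaBar Qb M q) hβf :=
    Fermat.Agent.Lib.HI.H864.normFormulaAlong_beta M q hβf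
  have hα' : (heckeAlphaBar Qb (M * a) q).toRingHom.IsIntegral :=
    Fermat.Agent.Lib.HI.H864.heckeAlphaBarIntegral (M * a) q
  have hαf' : FiniteAlong Qb (heckeAlphaBar Qb (M * a) q) :=
    Fermat.Agent.Lib.HI.H864.finiteAlong_alpha (M * a) q
  have hαN' : NormFormulaAlong Qb (heckeAlphaBar Qb (M * a) q) hαf' :=
    Fermat.Agent.Lib.HI.H864.normFormulaAlong_alpha (M * a) q hαf'
  have hβ' : (heckeBetaBar Qb (M * a) q).toRingHom.IsIntegral :=
    Fermat.Agent.Lib.HI.H864.heckeBetaBarIntegral (M * a) q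
  have hβf' : FiniteAlong Qb (heckeBetaBar Qb (M * a) q) :=
    Fermat.Agent.Lib.HI.H864.finiteAlong_beta (M * a) q
  have hβN' : NormFormulaAlong Qb (heckeBetaBar Qb (M * a) q) hβf' :=
    Fermat.Agent.Lib.HI.H864.normFormulaAlong_beta (M * a) q hβf'
  have hi : (heckeAlphaBar Qb M a).toRingHom.IsIntegral :=
    Fermat.Agent.Lib.HI.H864.heckeAlphaBarIntegral M a
  have hiFI : FundamentalIdentityAlong Qb (heckeAlphaBar Qb M a) hi :=
    Fermat.Agent.Lib.HI.H864.fundamentalIdentityAlong_alpha M a hi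
  have hi₁ := degenTop_isIntegral M a q
  have hFI₁ := degenTop_fundamentalIdentity M a q
  -- `α_* x = 0`, `β_* x = 0` in `pic0Push` form
  have hax' : pic0Push (heckeAlphaBar Qb M q) hα hαf hαN x = 0 := by
    rw [← pic0PushTotal_eq]
    exact hax
  have hbx' : pic0Push (heckeBetaBar Qb M q) hβ hβf hβN x = 0 := by
    rw [← pic0PushTotal_eq]
    exact hbx
  -- the class at the auxiliary level
  have hgal : ∀ (g : Qb ≃ₐ[ℚ] Qb) (y : JZero (M * q)),
      pullbackPic0Along (degenTop Qb M a q) hi₁ hFI₁ (g • y) =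
        g • pullbackPic0Along (degenTop Qb M a q) hi₁ hFI₁ y :=
    fun g y => pullback_degenTop_smul M a q g y
  have key := h A hA s hs (pullbackPic0Along (degenTop Qb M a q) hi₁ hFI₁ x)
    (by rw [← map_nsmul, hmx, map_zero])
    (by
      show pic0PushTotal (heckeAlphaBar Qb (M * a) q) _ = 0
      rw [pic0PushTotal_eq _ hα' hαf' hαN',
        pic0Push_pullbackPic0Along (heckeAlphaBar Qb M q) (heckeAlphaBar Qb M a)
          (heckeAlphaBar Qb (M * a) q) (degenTop Qb M a q) hα hi hα' hi₁
          (square_alpha Qb M a q) hαf hαN hαf' hαN' hiFI hFI₁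
          (normCompat_modular M a q hq hqM hqa) x, hax', map_zero])
    (by
      show pic0PushTotal (heckeBetaBar Qb (M * a) q) _ = 0
      rw [pic0PushTotal_eq _ hβ' hβf' hβN',
        pic0Push_pullbackPic0Along (heckeBetaBar Qb M q) (heckeAlphaBar Qb M a)
          (heckeBetaBar Qb (M * a) q) (degenTop Qb M a q) hβ hi hβ' hi₁
          (square_beta Qb M a q) hβf hβN hβf' hβN' hiFI hFI₁
          (normCompat_beta M a q hq hqM hqMa) x, hbx', map_zero])
  rw [← frobPolyAdd_map (pullbackPic0Along (degenTop Qb M a q) hi₁ hFI₁) hgal] at key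
  -- descend
  set y : JZero (M * q) := frobPolyAdd (s * s) (q ^ 2) x with hy
  have hmy : m • y = 0 := by
    rw [hy, nsmul_frobPolyAdd, hmx, frobPolyAdd_zero]
  have hdy : (a + 1) • y = 0 := by
    have := nsmul_eq_zero_of_pullbackPic0Along_eq_zero (degenTop Qb M a q) hi₁
      (degenTop_finiteAlong M a q) (degenTop_normFormula M a q) hFI₁ y key
    rwa [finrankAlong_degenTop M a q ha haMq] at this
  have h1 : addOrderOf y ∣ Nat.gcd (a + 1) m :=
    Nat.dvd_gcd (addOrderOf_dvd_of_nsmul_eq_zero hdy) (addOrderOf_dvd_of_nsmul_eq_zero hmy)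
  rw [hcop.gcd_eq_one, Nat.dvd_one] at h1
  exact AddMonoid.addOrderOf_eq_one_iff.mp h1

/-- Transport of `NewPartFrobAt` along an equality of levels. -/
theorem newPartFrobAt_congr {M M' q m : ℕ} [NeZero M] [NeZero M'] [NeZero q] (h : M' = M) :
    NewPartFrobAt M' q m → NewPartFrobAt M q m := by
  subst h
  exact id

/-- **D2F** (auxiliary-level descent), exact shape of `Spec.D2FStatement`. -/
theorem d2f : D2FStatement := by
  intro M q m _ _ _ hq hqM _hm hqm
  by_cases h3 : q = 3
  · subst h3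
    have haux : auxM M 3 = Nat.lcm M 2 := by
      unfold auxM
      rw [if_pos rfl]
    by_cases h2 : 2 ∣ M
    · exact newPartFrobAt_congr (by rw [haux, Nat.lcm_eq_left h2])
    · have hc : Nat.Coprime M 2 :=
        Nat.coprime_comm.mp ((Nat.Prime.coprime_iff_not_dvd Nat.prime_two).mpr h2)
      intro h
      have h' : NewPartFrobAt (M * 2) 3 m :=
        newPartFrobAt_congr (by rw [haux, hc.lcm_eq_mul]) h
      have hm3 : Nat.Coprime (2 + 1) m :=
        (Nat.Prime.coprime_iff_not_dvd Nat.prime_three).mpr hqm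
      exact newPartFrobAt_of_mul M 2 3 m Nat.prime_two Nat.prime_three (by decide) h2 hqM hm3 h'
  · by_cases h2 : q = 2
    · subst h2
      have haux : auxM M 2 = Nat.lcm M 3 := by
        unfold auxM
        rw [if_neg h3, if_pos rfl]
      by_cases h3' : 3 ∣ M
      · exact newPartFrobAt_congr (by rw [haux, Nat.lcm_eq_left h3'])
      · have hc : Nat.Coprime M 3 :=
          Nat.coprime_comm.mp ((Nat.Prime.coprime_iff_not_dvd Nat.prime_three).mpr h3')
        intro h
        have h' : NewPartFrobAt (M * 3) 2 m :=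
          newPartFrobAt_congr (by rw [haux, hc.lcm_eq_mul]) h
        have hm2 : Nat.Coprime 2 m := (Nat.Prime.coprime_iff_not_dvd Nat.prime_two).mpr hqm
        have hm4 : Nat.Coprime (3 + 1) m := by
          have : (3 + 1 : ℕ) = 2 ^ 2 := by norm_num
          rw [this]
          exact Nat.Coprime.pow_left 2 hm2
        exact newPartFrobAt_of_mul M 3 2 m Nat.prime_three Nat.prime_two (by decide) h3' hqM
          hm4 h'
    · have haux : auxM M q = M := by
        unfold auxM
        rw [if_neg h3, if_neg h2]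
      exact newPartFrobAt_congr haux

end Fermat.Agent.S35.G.H514

end
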