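import Fermat.Agent.S35.G.Spec
import Fermat.Agent.S37.H818.ModularNorm
import Fermat.Agent.S29.H801.M1Norm

/-!
# S35, piece (G'), leaf D2F — abstract part (helper514)

* `pic0Push_pullbackPic0Along` : base change `a'_* i₁^* = i^* a_*` on `Pic⁰` for a commutative
  square of function fields with norm compatibility (`S37.H818.pullback_pushforward_eq`);
* `frobPolyAdd_map` : the operator `(t - 1)² (t - Q)` commutes with equivariant additive maps;
* `span_range_of_sup` : spanning in a compositum, transported to the "along" language.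
-/

set_option autoImplicit false
set_option linter.style.haveILetI false

noncomputable section

namespace Fermat.Agent.S35.G.H514

open AlgebraicCurve IntermediateField
open Fermat.Agent.S37.H818 (pullbackPic0Along pullbackPic0Along_mk pullbackDegZeroAlong
  coe_pullbackDegZeroAlong NormCompat hasLocalGenerators pullback_pushforward_eq)

section Pic0

variable {K F F₁ G G₁ : Type*} [Field K] [Field F] [Field F₁] [Field G] [Field G₁]
  [Algebra K F] [Algebra K F₁] [Algebra K G] [Algebra K G₁]

/-- **Base change on `Pic⁰`**: `a'_* ∘ i₁^* = i^* ∘ a_*` for the square `i₁ ∘ a = a' ∘ i`. -/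
theorem pic0Push_pullbackPic0Along
    (a : F →ₐ[K] F₁) (i : F →ₐ[K] G) (a' : G →ₐ[K] G₁) (i₁ : F₁ →ₐ[K] G₁)
    (ha : a.toRingHom.IsIntegral) (hi : i.toRingHom.IsIntegral)
    (ha' : a'.toRingHom.IsIntegral) (hi₁ : i₁.toRingHom.IsIntegral)
    (hsq : i₁.comp a = a'.comp i)
    [HasPrincipalDivisors K G] [HasPrincipalDivisors K G₁] [HasPrincipalDivisors K F₁]
    (hfin : FiniteAlong K a) (hN : NormFormulaAlong K a hfin)
    (hfin' : FiniteAlong K a') (hN' : NormFormulaAlong K a' hfin')
    (hFIi : FundamentalIdentityAlong K i hi) (hFIi₁ : FundamentalIdentityAlong K i₁ hi₁)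
    (hnorm : NormCompat a i a' i₁) (x : Pic0 K F₁) :
    pic0Push a' ha' hfin' hN' (pullbackPic0Along i₁ hi₁ hFIi₁ x) =
      pullbackPic0Along i hi hFIi (pic0Push a ha hfin hN x) := by
  obtain ⟨D, rfl⟩ := Pic0.mk_surjective x
  rw [pullbackPic0Along_mk, pic0Push_mk, pic0Push_mk, pullbackPic0Along_mk]
  congr 1
  apply Subtype.ext
  exact (pullback_pushforward_eq a i a' i₁ ha hi ha' hi₁ hsq hfin hN hfin' hN' hnorm
    (hasLocalGenerators a ha) (D : Divisor K F₁)).symm

end Pic0

section FrobPoly

variable {Γ X Y : Type*} [Group Γ] [AddCommGroup X] [AddCommGroup Y]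
  [DistribMulAction Γ X] [DistribMulAction Γ Y]

/-- `(t - 1)² (t - Q)` commutes with equivariant additive maps. -/
theorem frobPolyAdd_map (f : X →+ Y) (hf : ∀ (g : Γ) (x : X), f (g • x) = g • f x)
    (t : Γ) (Q : ℕ) (x : X) : f (frobPolyAdd t Q x) = frobPolyAdd t Q (f x) := by
  unfold frobPolyAdd
  simp only [map_sub, map_nsmul, hf]

/-- `(t - 1)² (t - Q)` preserves `m`-torsion. -/
theorem nsmul_frobPolyAdd (t : Γ) (Q m : ℕ) (x : X) :
    m • frobPolyAdd t Q x = frobPolyAdd t Q (m • x) := by
  have h := frobPolyAdd_map (Γ := Γ) (nsmulAddMonoidHom (α := X) m)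
    (fun g x => by
      show m • (g • x) = g • (m • x)
      rw [smul_comm]) t Q x
  exact h

end FrobPoly

section Span

variable {K E : Type*} [Field K] [Field E] [Algebra K E]

/-- Elements of `T` are algebraic over `A` when `[T : A]` is finite. -/
theorem isAlgebraic_of_relfinrank_ne_zero' {A T : IntermediateField K E} (hAT : A ≤ T)
    (h : A.relfinrank T ≠ 0) {x : E} (hx : x ∈ T) : IsAlgebraic A x := by
  rw [relfinrank_eq_finrank_of_le hAT] at h
  haveI : FiniteDimensional A (extendScalars hAT) :=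
    Module.finite_of_finrank_pos (Nat.pos_of_ne_zero h)
  have h1 : IsAlgebraic A (⟨x, hx⟩ : extendScalars hAT) :=
    Algebra.IsAlgebraic.isAlgebraic _
  exact (IntermediateField.isAlgebraic_iff (S := extendScalars hAT) (x := ⟨x, hx⟩)).mp h1

end Span

end Fermat.Agent.S35.G.H514

end
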