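import Fermat.Agent.S35.G.H514.D2FAbs
import Fermat.Agent.Lib.X0Deg.Gen
import Fermat.Agent.S37.H218.Degree
import Fermat.Agent.Lib.HI.H864.Modular

/-!
# S35, piece (G'), leaf D2F — modular part (helper514)

The square of function fields over `ℚ̄` (`a ≠ q` primes, `a ∤ M`, `q ∤ M`)

      F_M     --α_q / β_q-->  F_{M q}
       |α_a                    |π = degenTop
       v                       v
      F_{M a} --α_q / β_q-->  F_{M a q}

* inputs of `π^*` and `π_*` (`degenTop_*`), `[F_{M a q} : F_{M q}] = a + 1`;
* norm compatibility of the `β`-square (`normCompat_beta`; the `α`-square is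
  `S37.H818.normCompat_modular`);
* `newPartFrobAt_of_mul` : `NewPartFrobAt (M * a) q m → NewPartFrobAt M q m` when `a + 1` is
  prime to `m`.
-/

set_option autoImplicit false
set_option linter.style.haveILetI false

noncomputable section

namespace Fermat.Agent.S35.G.H514

open ModularCurve AlgebraicCurve IntermediateField
open Fermat.Agent.S37.H818 (pullbackPic0Along pullbackPic0Along_mk NormCompat degenTop degenIncl
  coe_degenIncl square_alpha square_beta normCompat_modular intertwines_degenIncl dvd_aux
  pullbackPic0Along_smul nsmul_eq_zero_of_pullbackPic0Along_eq_zero)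
open Fermat.Agent.S24 (FF jF)

variable (M a q : ℕ) [NeZero M] [NeZero a] [NeZero q]

/-! ### The inputs of `π = degenTop` -/

theorem finiteDimensional_degenTop :
    FiniteDimensional ↥(IntermediateField.adjoin Qb {degenTop Qb M a q (jF (M * q))})
      (FF (M * a * q)) :=
  Fermat.Agent.Lib.HI.H864.finiteDimensional_jF (M * a * q)

theorem degenTop_finiteAlong : FiniteAlong Qb (degenTop Qb M a q) := by
  haveI := finiteDimensional_degenTop M a q
  exact Fermat.Agent.Lib.HI.H864.finiteAlong (degenTop Qb M a q) (jF (M * q))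

theorem degenTop_isIntegral : (degenTop Qb M a q).toRingHom.IsIntegral := by
  haveI := finiteDimensional_degenTop M a q
  exact Fermat.Agent.Lib.HI.H864.isIntegral_along_of_finite (degenTop Qb M a q) (jF (M * q))

theorem degenTop_normFormula :
    NormFormulaAlong Qb (degenTop Qb M a q) (degenTop_finiteAlong M a q) := by
  haveI := Fermat.Agent.Lib.HI.H864.finiteDimensional_jF (M * q)
  haveI := finiteDimensional_degenTop M a q
  exact Fermat.Agent.Lib.HI.H864.normFormulaAlong (degenTop Qb M a q) (jF (M * q))
    (Fermat.Agent.Lib.HI.H864.transcendental_jF (M * q)) _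

theorem degenTop_fundamentalIdentity
    [HasPrincipalDivisors Qb (modularFunctionFieldBar (M * a * q))] :
    FundamentalIdentityAlong Qb (degenTop Qb M a q) (degenTop_isIntegral M a q) := by
  haveI := Fermat.Agent.Lib.HI.H864.finiteDimensional_jF (M * q)
  haveI := finiteDimensional_degenTop M a q
  exact Fermat.Agent.Lib.HI.H864.fundamentalIdentityAlong (degenTop Qb M a q) (jF (M * q))
    (Fermat.Agent.Lib.HI.H864.transcendental_jF (M * q)) _

/-- `[F_{M a q} : F_{M q}] = a + 1` for a prime `a ∤ M q`. -/
theorem finrankAlong_degenTop (ha : a.Prime) (haM : ¬ a ∣ M * q) :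
    finrankAlong Qb (degenTop Qb M a q) = a + 1 := by
  have h := Fermat.Agent.S28.H988.relfinrank_bar_mul_prime (M * q) a (NeZero.ne _) ha
  rw [if_neg haM, Nat.mul_right_comm M q a] at h
  rw [← h]
  exact Fermat.Agent.S37.H818.finrankAlong_inclusion _

/-- `π^*` is Galois-equivariant. -/
theorem pullback_degenTop_smul [HasPrincipalDivisors Qb (modularFunctionFieldBar (M * a * q))]
    (σ : Qb ≃ₐ[ℚ] Qb) (x : JZero (M * q)) :
    pullbackPic0Along (degenTop Qb M a q) (degenTop_isIntegral M a q)
        (degenTop_fundamentalIdentity M a q) (σ • x) =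
      σ • pullbackPic0Along (degenTop Qb M a q) (degenTop_isIntegral M a q)
        (degenTop_fundamentalIdentity M a q) x := by
  rw [galois_smul_pic0_def, galois_smul_pic0_def]
  exact pullbackPic0Along_smul (degenTop Qb M a q) (degenTop_isIntegral M a q)
    (intertwines_degenIncl (dvd_aux M a q) σ) (degenTop_fundamentalIdentity M a q) x

/-! ### Norm compatibility of the `β`-square -/

set_option synthInstance.maxHeartbeats 400000 in
/-- **Norm compatibility of the `β`-square**: the image of `F_{M q}` spans `F_{M a q}` over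
`V_q(F_{M a})`, and both `β`'s have degree `q + 1`. -/
theorem normCompat_beta (hq : q.Prime) (hqM : ¬ q ∣ M) (hqMa : ¬ q ∣ M * a) :
    NormCompat (heckeBetaBar Qb M q) (heckeAlphaBar Qb M a) (heckeBetaBar Qb (M * a) q)
      (degenTop Qb M a q) := by
  refine Fermat.Agent.S29.H801.normCompat_of_span _ _ _ _ (square_beta Qb M a q)
    (Fermat.Agent.Lib.HI.H864.finiteAlong_beta M q)
    (Fermat.Agent.Lib.HI.H864.finiteAlong_beta (M * a) q)
    (by
      rw [Fermat.Agent.S37.H218.finrankAlong_heckeBetaBar_of_not_dvd M q hq hqM,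
        Fermat.Agent.S37.H218.finrankAlong_heckeBetaBar_of_not_dvd (M * a) q hq hqMa]) ?_
  letI := algebraAlong (heckeBetaBar Qb (M * a) q)
  rw [eq_top_iff]
  rintro t -
  set A : IntermediateField Qb (LaurentSeries Qb) :=
    (modularFunctionFieldBar (M * a)).map (qExpandAlgHomC Qb q) with hA
  set B : IntermediateField Qb (LaurentSeries Qb) := modularFunctionFieldBar (M * q) with hB
  have hsup : modularFunctionFieldBar (M * a * q) = B ⊔ A :=
    Fermat.Agent.Lib.X0Deg.modularFunctionFieldBar_mul_eq_sup (M * a) q (dvd_aux M a q)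
  have hAT : A ≤ modularFunctionFieldBar (M * a * q) :=
    Fermat.Agent.S37.H218.map_qExpand_bar_le (M * a) q
  have hd : A.relfinrank (modularFunctionFieldBar (M * a * q)) ≠ 0 := by
    rw [hA, Fermat.Agent.S37.H218.relfinrank_map_qExpand_bar_mul_prime (M * a) q (NeZero.ne _) hq,
      if_neg hqMa]
    exact Nat.succ_ne_zero q
  have halg : ∀ x ∈ B, IsAlgebraic A x := fun x hx =>
    isAlgebraic_of_relfinrank_ne_zero' hAT hd (by
      rw [hsup]
      exact (le_sup_left : B ≤ B ⊔ A) hx)
  have ht : (t : LaurentSeries Qb) ∈ A ⊔ B := by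
    rw [sup_comm, ← hsup]
    exact t.2
  have hs := Fermat.Agent.S29.H801.mem_span_of_mem_sup A B halg ht
  have key : ∀ x : LaurentSeries Qb, x ∈ Submodule.span A (B : Set (LaurentSeries Qb)) →
      ∃ y : ↥(laurentBaseChange Qb (modularFunctionFieldFull (M * a * q))),
        y ∈ Submodule.span ↥(laurentBaseChange Qb (modularFunctionFieldFull (M * a)))
          (Set.range (degenTop Qb M a q)) ∧
        (y : LaurentSeries Qb) = x := by
    intro x hx
    induction hx using Submodule.span_induction with
    | mem x hx =>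
      exact ⟨degenTop Qb M a q ⟨x, hx⟩, Submodule.subset_span ⟨_, rfl⟩, rfl⟩
    | zero => exact ⟨0, Submodule.zero_mem _, rfl⟩
    | add x y _ _ hx hy =>
      obtain ⟨x', hx', rfl⟩ := hx
      obtain ⟨y', hy', rfl⟩ := hy
      exact ⟨x' + y', Submodule.add_mem _ hx' hy', rfl⟩
    | smul c x _ hx =>
      obtain ⟨x', hx', rfl⟩ := hx
      obtain ⟨g, hg, hgc⟩ := c.2
      refine ⟨(⟨g, hg⟩ : ↥(laurentBaseChange Qb (modularFunctionFieldFull (M * a)))) • x',
        Submodule.smul_mem _ _ hx', ?_⟩
      have h1 : ((⟨g, hg⟩ : ↥(laurentBaseChange Qb (modularFunctionFieldFull (M * a)))) • x' :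
          ↥(laurentBaseChange Qb (modularFunctionFieldFull (M * a * q)))) =
          heckeBetaBar Qb (M * a) q ⟨g, hg⟩ * x' := rfl
      rw [h1, MulMemClass.coe_mul, coe_heckeBetaBar, Algebra.smul_def]
      congr 1
  obtain ⟨y, hy, hyt⟩ := key _ hs
  have : y = t := Subtype.ext hyt
  rw [← this]
  exact hy

end Fermat.Agent.S35.G.H514

end
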